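import Mathlib

/-!
# S33 / RAY : two lemmas of linear algebra over the fixed field   (WP **RAY-INDEP**)

Mathlib only.

* `exists_indep` (exchange lemma).  `A` a valuation ring of `L`, `K₀` a subfield.  Every finite family
  `a i ∈ A` can be written `a i = ∑ j, w i j * e j` with `e j ∈ A` linearly independent over `K₀` and
  `w i j ∈ A ∩ K₀`.
  PROOF. Induction on `n` (`Fin.consInduction` / `Fin.snoc`, or state it for lists / finsets first).
  Given `e` for `a 0, …, a (n-1)` and a new element `a`.  If `e ∪ {a}` is independent: add `a`.
  Otherwise `a = ∑ c j * e j`, `c j ∈ K₀`.  If all `c j ∈ A`: keep `e`.  Otherwise choose `j₀` with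
  `A.valuation (c j₀)` maximal (so `c j₀ ∉ A`, `(c j₀)⁻¹ ∈ A`, `c j / c j₀ ∈ A` for all `j`) and replace
  `e j₀` by `a`: `e j₀ = (c j₀)⁻¹ * a - ∑_{j ≠ j₀} (c j / c j₀) * e j`; the new family is still independent
  (exchange) and all old `e j`, hence all old `a i`, are `A ∩ K₀`-combinations of the new family.
* `eq_zero_of_sum_mul_eq_zero` (Artin / Speiser).  `G` a group of automorphisms of `L`, `e j` linearly
  independent over the fixed field, `u j : S → L` functions such that the family is "equivariant"
  (`hu`).  Then `∑ j, e j * u j s = 0` for all `s` forces `u = 0`.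
  PROOF. Fix `s`.  For `g : G` take `s'` from `hu g s` and apply `g` to the relation at `s'`:
  `∑ j, (g • e j) * u j s = 0`.  So `∑ j, u j s • (fun g => g • e j) = 0` in `G → L`; conclude with
  `FixedPoints.linearIndependent_smul_of_linearIndependent` (applied to the finset `image e univ`;
  `e` is injective because it is linearly independent).
-/

set_option autoImplicit false

namespace Fermat.Agent.S33.Ray

theorem exists_indep_span {L : Type*} [Field L] (A : ValuationSubring L) (K₀ : Subfield L) {n : ℕ}
    (a : Fin n → L) (ha : ∀ i, a i ∈ A) :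
    ∃ (r : ℕ) (e : Fin r → L), (∀ j, e j ∈ A) ∧ LinearIndependent K₀ e ∧
      ∀ i, a i ∈ Submodule.span (A.toSubring ⊓ K₀.toSubring : Subring L) (Set.range e) := by
  classical
  induction n with
  | zero => exact ⟨0, Fin.elim0, fun j => j.elim0, linearIndependent_empty_type, fun i => i.elim0⟩
  | succ n ih =>
    obtain ⟨r, e, heA, hli, hsp⟩ := ih (fun i => a i.succ) (fun i => ha _)
    have hmul : ∀ (e' : Fin r → L) (x : L), x ∈ A → x ∈ K₀ → ∀ y ∈ Submodule.span
        (A.toSubring ⊓ K₀.toSubring : Subring L) (Set.range e'),
        x * y ∈ Submodule.span (A.toSubring ⊓ K₀.toSubring : Subring L) (Set.range e') :=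
      fun e' x hx hx' y hy => Submodule.smul_mem _
        (⟨x, hx, hx'⟩ : (A.toSubring ⊓ K₀.toSubring : Subring L)) hy
    by_cases h : a 0 ∈ Submodule.span K₀ (Set.range e)
    · obtain ⟨c, hc⟩ := (Submodule.mem_span_range_iff_exists_fun K₀).mp h
      have hc' : ∑ j, (c j : L) * e j = a 0 := hc
      by_cases hcA : ∀ j, (c j : L) ∈ A
      · refine ⟨r, e, heA, hli, fun i => ?_⟩
        refine Fin.cases ?_ hsp i
        rw [← hc']
        exact Submodule.sum_mem _ fun j _ =>
          hmul e _ (hcA j) (c j).2 _ (Submodule.subset_span ⟨j, rfl⟩)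
      · push Not at hcA
        obtain ⟨j₁, hj₁⟩ := hcA
        have : Nonempty (Fin r) := ⟨j₁⟩
        obtain ⟨j₀, hj₀⟩ := Finite.exists_max (fun j => A.valuation (c j : L))
        have hv : 1 < A.valuation (c j₀ : L) := by
          have h1 : 1 < A.valuation (c j₁ : L) := by
            rw [← not_le, A.valuation_le_one_iff]
            exact hj₁
          exact lt_of_lt_of_le h1 (hj₀ j₁)
        have hc0 : (c j₀ : L) ≠ 0 := by
          intro h0
          rw [h0, map_zero] at hv
          exact absurd hv (not_lt.mpr zero_le)
        have hc0' : c j₀ ≠ 0 := fun h0 => hc0 (by rw [h0]; rfl)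
        have hsplit : (c j₀ : L) * e j₀ + ∑ j ∈ Finset.univ.erase j₀, (c j : L) * e j = a 0 := by
          rw [← hc']
          exact Finset.add_sum_erase _ (fun j => (c j : L) * e j) (Finset.mem_univ j₀)
        refine ⟨r, Function.update e j₀ (a 0), fun j => ?_, ?_, fun i => ?_⟩
        · by_cases hj : j = j₀
          · subst hj; rw [Function.update_self]; exact ha 0
          · rw [Function.update_of_ne hj]; exact heA j
        · rw [Fintype.linearIndependent_iff] at hli ⊢
          intro d hd
          have hd' : ∑ j, (d j : L) * Function.update e j₀ (a 0) j = 0 := hd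
          rw [← Finset.add_sum_erase _ _ (Finset.mem_univ j₀), Function.update_self] at hd'
          have e1 : ∑ j ∈ Finset.univ.erase j₀, (d j : L) * Function.update e j₀ (a 0) j =
              ∑ j ∈ Finset.univ.erase j₀, (d j : L) * e j :=
            Finset.sum_congr rfl fun j hj => by
              rw [Function.update_of_ne (Finset.ne_of_mem_erase hj)]
          rw [e1, ← hsplit] at hd'
          have key := hli (fun j => if j = j₀ then d j₀ * c j₀ else d j₀ * c j + d j) (by
            show ∑ j, ((if j = j₀ then d j₀ * c j₀ else d j₀ * c j + d j : K₀) : L) * e j = 0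
            rw [← Finset.add_sum_erase _ _ (Finset.mem_univ j₀), if_pos rfl]
            have e2 : ∑ j ∈ Finset.univ.erase j₀,
                ((if j = j₀ then d j₀ * c j₀ else d j₀ * c j + d j : K₀) : L) * e j =
                ∑ j ∈ Finset.univ.erase j₀, ((d j₀ : L) * ((c j : L) * e j) + (d j : L) * e j) :=
              Finset.sum_congr rfl fun j hj => by
                rw [if_neg (Finset.ne_of_mem_erase hj)]
                push_cast
                ring
            rw [e2, Finset.sum_add_distrib, ← Finset.mul_sum]
            rw [← hd']
            push_cast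
            ring)
          have hdj₀ : d j₀ = 0 := by
            have := key j₀
            rw [if_pos rfl] at this
            exact (mul_eq_zero.mp this).resolve_right hc0'
          intro j
          by_cases hj : j = j₀
          · rw [hj]; exact hdj₀
          · have := key j
            rw [if_neg hj, hdj₀, zero_mul, zero_add] at this
            exact this
        · have hle : Submodule.span (A.toSubring ⊓ K₀.toSubring : Subring L) (Set.range e) ≤
              Submodule.span (A.toSubring ⊓ K₀.toSubring : Subring L)
                (Set.range (Function.update e j₀ (a 0))) := by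
            rw [Submodule.span_le]
            rintro _ ⟨k, rfl⟩
            by_cases hk : k = j₀
            · subst hk
              have e3 : e k = (c k : L)⁻¹ * a 0 -
                  ∑ j ∈ Finset.univ.erase k, ((c j : L) / (c k : L)) * e j := by
                rw [← hsplit, mul_add, Finset.mul_sum, inv_mul_cancel_left₀ hc0]
                have : ∑ j ∈ Finset.univ.erase k, (c k : L)⁻¹ * ((c j : L) * e j) =
                    ∑ j ∈ Finset.univ.erase k, ((c j : L) / (c k : L)) * e j :=
                  Finset.sum_congr rfl fun j _ => by
                    rw [div_eq_mul_inv]; ring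
                rw [this, add_sub_cancel_right]
              show e k ∈ _
              rw [e3]
              refine Submodule.sub_mem _ ?_ (Submodule.sum_mem _ fun j hj => ?_)
              · refine hmul _ _ ?_ (K₀.inv_mem (c k).2) _
                  (Submodule.subset_span ⟨k, Function.update_self ..⟩)
                rw [← A.valuation_le_one_iff, map_inv₀]
                exact inv_le_one_of_one_le₀ hv.le
              · refine hmul _ _ ?_ (K₀.div_mem (c j).2 (c k).2) _
                  (Submodule.subset_span ⟨j, Function.update_of_ne (Finset.ne_of_mem_erase hj) ..⟩)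
                rw [← A.valuation_le_one_iff, map_div₀]
                exact div_le_one_of_le₀ (hj₀ j) zero_le
            · exact Submodule.subset_span ⟨k, Function.update_of_ne hk ..⟩
          refine Fin.cases ?_ (fun i => hle (hsp i)) i
          exact Submodule.subset_span ⟨j₀, Function.update_self ..⟩
    · refine ⟨r + 1, Fin.cons (a 0) e, fun j => ?_, linearIndependent_finCons.mpr ⟨hli, h⟩,
        fun i => ?_⟩
      · refine Fin.cases ?_ (fun j => ?_) j
        · simpa using ha 0
        · simpa using heA j
      · refine Fin.cases ?_ (fun i => ?_) i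
        · exact Submodule.subset_span ⟨0, by simp⟩
        · refine Submodule.span_mono ?_ (hsp i)
          rintro _ ⟨j, rfl⟩
          exact ⟨j.succ, by simp⟩

theorem exists_indep {L : Type*} [Field L] (A : ValuationSubring L) (K₀ : Subfield L) {n : ℕ}
    (a : Fin n → L) (ha : ∀ i, a i ∈ A) :
    ∃ (r : ℕ) (e : Fin r → L) (w : Fin n → Fin r → L), (∀ j, e j ∈ A) ∧
      LinearIndependent K₀ e ∧ (∀ i j, w i j ∈ A ∧ w i j ∈ K₀) ∧ ∀ i, a i = ∑ j, w i j * e j := by
  obtain ⟨r, e, heA, hli, hsp⟩ := exists_indep_span A K₀ a ha
  choose w hw using fun i => (Submodule.mem_span_range_iff_exists_fun _).mp (hsp i)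
  exact ⟨r, e, fun i j => (w i j : L), heA, hli, fun i j => (w i j).2, fun i => (hw i).symm⟩

theorem eq_zero_of_sum_mul_eq_zero {L G S : Type*} [Field L] [Group G] [MulSemiringAction G L]
    {r : ℕ} {e : Fin r → L} (he : LinearIndependent (FixedPoints.subfield G L) e)
    (u : Fin r → S → L) (hu : ∀ (g : G) (s : S), ∃ s' : S, ∀ j, g • u j s' = u j s)
    (h : ∀ s, ∑ j, e j * u j s = 0) (j : Fin r) (s : S) : u j s = 0 := by
  classical
  set T : Finset L := Finset.image e Finset.univ with hT
  have hTr : (T : Set L) = Set.range e := by simp [hT]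
  have h1 : LinearIndepOn (FixedPoints.subfield G L) id (T : Set L) := by
    rw [hTr]
    exact he.linearIndepOn_id
  have h2 := FixedPoints.linearIndependent_smul_of_linearIndependent G L h1
  let ι : Fin r → (T : Set L) := fun j => ⟨e j, by rw [hTr]; exact ⟨j, rfl⟩⟩
  have hι : Function.Injective ι := fun a b hab => he.injective (congrArg Subtype.val hab)
  have h3 : LinearIndependent L (fun j : Fin r => MulAction.toFun G L (e j)) := LinearIndependent.comp h2 ι hι
  rw [Fintype.linearIndependent_iff] at h3
  refine h3 (fun j => u j s) ?_ j
  funext g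
  obtain ⟨s', hs'⟩ := hu g s
  have h4 := congrArg (fun x => g • x) (h s')
  simp only [Finset.smul_sum, smul_mul', smul_zero, hs'] at h4
  simp only [Finset.sum_apply, Pi.smul_apply, smul_eq_mul, Pi.zero_apply]
  rw [← h4]
  refine Finset.sum_congr rfl (fun j _ => ?_)
  rw [mul_comm]
  rfl

end Fermat.Agent.S33.Ray
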