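import Fermat.Agent.MAZ.Loc.OT

/-!
# S33 / RAY : three small facts about `ℚ̄`, `A | p`   (WP **RAY-VAL**)

* `valuation_le_of_fixed` : `K₀ = ℚ̄ ^ I_A` is unramified: `c` fixed by `I_A`, `v(c) < 1` ⟹ `v(c) ≤ v(p)`.
  PROOF. `c = 0` trivial.  `MAZ.exists_pow_eq_zpow_of_orbit hp hA hc {c}` gives `f = 1`,
  `v(c) = v(p) ^ n`; `v(c) < 1`, `v(p) < 1` force `n ≥ 1` (cf. `MAZ.le_of_pow_eq_zpow_ot`).
* `valuation_lt_of_root` : `ζ ≠ 1`, `ζ ^ p ^ k = 1`, `p` odd ⟹ `v(p) < v(ζ - 1)`.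
  PROOF. Let `j` be minimal with `ζ ^ p ^ j = 1` (`j ≥ 1`), `ξ = ζ ^ p ^ (j - 1)`, a primitive `p`-th root
  of unity; `ζ - 1 ∣ ξ - 1` in `A` (`ζ ∈ A` is integral), so `v(ξ - 1) ≤ v(ζ - 1)`;
  `v(ξ - 1) ^ (p - 1) = v(p)` (e.g. `S36/Mod/Lz.lean`, `CFT/LS/Hensel.lean : val_zeta_sub_one_pow`, or from
  `∏_{i=1}^{p-1} (1 - ξ^i) = p` and `(1 - ξ^i)/(1 - ξ)` unit; copy the proof, do not import S36) and
  `v(ξ - 1) < 1`, `p - 1 ≥ 2`, so `v(p) < v(ξ - 1)`.
* `exists_addChar_ne_one` : characters of a finite abelian group separate points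
  (`CommGroup.exists_apply_ne_one_of_hasEnoughRootsOfUnity`, cf. `MAZ.card_addChar_ot` for the
  instances and the translation `AddChar ↔ Multiplicative _ →* _ˣ`).
-/

set_option autoImplicit false

namespace Fermat.Agent.S33.Ray

open Fermat.Agent.FLAT (Qb GQ)

theorem valuation_le_of_fixed {p : ℕ} (hp : p.Prime) {A : ValuationSubring Qb}
    (hA : A.LiesOverPrime p) {c : Qb} (hfix : ∀ σ ∈ A.inertiaSubgroupIn ℚ, σ c = c)
    (hc : A.valuation c < 1) : A.valuation c ≤ A.valuation (p : Qb) := by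
  by_cases hc0 : c = 0
  · rw [hc0, map_zero]; exact zero_le
  obtain ⟨f, n, hf1, hf2, hfn⟩ := MAZ.exists_pow_eq_zpow_of_orbit hp hA hc0 {c}
    (fun σ hσ => by rw [hfix σ hσ]; exact Finset.mem_singleton_self c)
  have hp0 : A.valuation (p : Qb) ≠ 0 := by
    rw [Ne, map_eq_zero]; exact_mod_cast hp.ne_zero
  exact MAZ.le_of_pow_eq_zpow_ot (N := 1) hc hp0 ((A.mem_nonunits_iff).1 hA) hf1
    (by simpa using hf2) hfn (pow_one _).symm

theorem valuation_lt_of_root {p : ℕ} (hp : p.Prime) (hp2 : p ≠ 2) {A : ValuationSubring Qb}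
    (hA : A.LiesOverPrime p) {ζ : Qb} {k : ℕ} (h1 : ζ ^ p ^ k = 1) (hne : ζ ≠ 1) :
    A.valuation (p : Qb) < A.valuation (ζ - 1) := by
  classical
  -- minimal `j`
  have hex : ∃ j, ζ ^ p ^ j = 1 := ⟨k, h1⟩
  set j := Nat.find hex with hj
  have hj1 : ζ ^ p ^ j = 1 := Nat.find_spec hex
  have hj0 : j ≠ 0 := by
    intro h0
    rw [h0] at hj1
    exact hne (by simpa using hj1)
  obtain ⟨i, hi⟩ : ∃ i, j = i + 1 := ⟨j - 1, by omega⟩
  set ξ := ζ ^ p ^ i with hξ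
  have hξ1 : ξ ≠ 1 := by
    intro h
    have := Nat.find_min hex (m := i) (by omega)
    exact this h
  have hξp : ξ ^ p = 1 := by
    rw [hξ, ← pow_mul, ← pow_succ, ← hi]; exact hj1
  have hprim : IsPrimitiveRoot ξ p := by
    have h3 := orderOf_eq_prime (hp := ⟨hp⟩) hξp hξ1
    rw [← h3]
    exact IsPrimitiveRoot.orderOf _
  have hval := Bridge.valuation_natCast_eq_pow (A := A) hp hprim
  have hpv : A.valuation (p : Qb) < 1 := (A.mem_nonunits_iff).1 hA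
  have hξv : A.valuation (ξ - 1) < 1 := by
    by_contra h
    rw [not_lt] at h
    have : (1 : _) ≤ A.valuation (ξ - 1) ^ (p - 1) := one_le_pow₀ h
    rw [← hval] at this
    exact absurd hpv (not_lt.2 this)
  have hξ0 : A.valuation (ξ - 1) ≠ 0 := by
    rw [Ne, map_eq_zero, sub_eq_zero]; exact hξ1
  have hlt : A.valuation (p : Qb) < A.valuation (ξ - 1) := by
    rw [hval]
    have h2 : 2 ≤ p - 1 := by have := hp.two_le; omega
    calc A.valuation (ξ - 1) ^ (p - 1) ≤ A.valuation (ξ - 1) ^ 2 :=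
          pow_le_pow_of_le_one zero_le hξv.le h2
      _ = A.valuation (ξ - 1) * A.valuation (ξ - 1) := sq _
      _ < 1 * A.valuation (ξ - 1) := by
          exact mul_lt_mul_of_pos_right hξv (zero_lt_iff.2 hξ0)
      _ = A.valuation (ξ - 1) := one_mul _
  -- `ζ ∈ A`
  have hζA : A.valuation ζ ≤ 1 := by
    by_contra h
    rw [not_le] at h
    have : 1 < A.valuation ζ ^ p ^ k := one_lt_pow₀ h (pow_ne_zero _ hp.ne_zero)
    rw [← map_pow, h1, map_one] at this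
    exact lt_irrefl _ this
  have hdvd : ξ - 1 = (ζ - 1) * ∑ m ∈ Finset.range (p ^ i), ζ ^ m := by
    rw [hξ, mul_comm]; exact (geom_sum_mul ζ (p ^ i)).symm
  have hsum : A.valuation (∑ m ∈ Finset.range (p ^ i), ζ ^ m) ≤ 1 := by
    refine Valuation.map_sum_le _ (fun m _ => ?_)
    rw [map_pow]; exact pow_le_one₀ zero_le hζA
  have hle : A.valuation (ξ - 1) ≤ A.valuation (ζ - 1) := by
    rw [hdvd, map_mul]
    calc _ ≤ A.valuation (ζ - 1) * 1 := mul_le_mul_right hsum _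
      _ = _ := mul_one _
  exact lt_of_lt_of_le hlt hle

theorem exists_addChar_ne_one {Y : Type} [AddCommGroup Y] [Finite Y] {y : Y} (hy : y ≠ 0) :
    ∃ ψ : AddChar Y Qb, ψ y ≠ 1 := by
  have hexp : NeZero (Monoid.exponent (Multiplicative Y)) :=
    ⟨(Monoid.exponent_ne_zero_of_finite)⟩
  have hy' : Multiplicative.ofAdd y ≠ 1 := fun h => hy (by simpa using h)
  obtain ⟨φ, hφ⟩ := CommGroup.exists_apply_ne_one_of_hasEnoughRootsOfUnity
    (Multiplicative Y) Qb hy'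
  refine ⟨AddChar.toMonoidHomEquiv.symm ((Units.coeHom Qb).comp φ), fun h => hφ ?_⟩
  apply Units.ext
  exact h

end Fermat.Agent.S33.Ray
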