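import Fermat.Agent.S33.NT
import Fermat.Agent.S33.Ray.Indep
import Fermat.Agent.S33.Ray.Val
import Fermat.Agent.MAZ.Loc.Main

/-!
# S33 / RAY : the connected part of a Hopf order has no trivial subquotient (`p` odd)
-/

set_option autoImplicit false

noncomputable section

namespace Fermat.Agent.S33.Ray

open Fermat.Agent.FLAT (Qb GQ Zl IsHopfOrder)
open Fermat.Agent.MAZ

variable {r : ℕ} [Fact r.Prime] {A : ValuationSubring Qb} {X : Type} [AddCommGroup X]
  [DistribMulAction GQ X] {H : Subalgebra (Zl r) (X → Qb)}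

/-- the key claim. -/
theorem not_le_conn [Finite X] (hr2 : r ≠ 2) (hA : A.LiesOverPrime r)
    (hH : IsHopfOrder r (DistribMulAction.toAddMonoidEnd GQ X) H)
    (hX : ∀ v : X, ∃ k : ℕ, r ^ k • v = 0) (Z : AddSubgroup X)
    (hZ : Stable (A.inertiaSubgroupIn ℚ) Z) (ψ : AddChar X Qb)
    (hψ : ∀ τ ∈ A.inertiaSubgroupIn ℚ, ∀ z ∈ Z, ψ (τ • z) = ψ z) {z₀ : X} (hz₀ : z₀ ∈ Z)
    (hne : ψ z₀ ≠ 1) : ¬ Z ≤ conn A H := by
  intro hle
  have hr : r.Prime := Fact.out
  set I := A.inertiaSubgroupIn ℚ with hI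
  obtain ⟨n, b, c, hb, hc, e⟩ := pm_exists_coeff hA hH ψ
  obtain ⟨m, ee, w, hee, hind, hw, hcw⟩ := exists_indep A (FixedPoints.subfield ↥I Qb) c hc
  set g : Fin m → X → Qb := fun j x => ∑ i, w i j * b i x with hg
  -- (a)
  have ha : ∀ x, ψ x = ∑ j, ee j * g j x := by
    intro x
    have h1 := congrFun e x
    simp only [Finset.sum_apply, Pi.smul_apply, smul_eq_mul] at h1
    rw [h1]
    simp only [hg, Finset.mul_sum]
    rw [Finset.sum_comm]
    refine Finset.sum_congr rfl fun i _ => ?_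
    rw [hcw i, Finset.sum_mul]
    refine Finset.sum_congr rfl fun j _ => ?_
    ring
  -- (b)
  have hbq : ∀ (τ : GQ), τ ∈ I → ∀ j x, g j (τ • x) = τ (g j x) := by
    intro τ hτ j x
    simp only [hg, map_sum, map_mul]
    refine Finset.sum_congr rfl fun i _ => ?_
    have h1 : b i (τ • x) = τ (b i x) := hH.equivariant (b i) (hb i) τ x
    have h2 : τ (w i j) = w i j := (hw i j).2 ⟨τ, hτ⟩
    rw [h1, h2]
  -- (c)
  have hgs : ∀ j, g j ∈ Submodule.span A (H : Set (X → Qb)) := by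
    intro j
    have : g j = ∑ i, (⟨w i j, (hw i j).1⟩ : A) • b i := by
      funext x
      simp only [hg, Finset.sum_apply, Pi.smul_apply]
      rfl
    rw [this]
    exact Submodule.sum_mem _ fun i _ => Submodule.smul_mem _ _ (Submodule.subset_span (hb i))
  -- Step 2
  have key := eq_zero_of_sum_mul_eq_zero (S := ↥Z × ↥I) hind
    (fun j s => g j ((s.2 : GQ) • (s.1 : X)) - g j (s.1 : X))
    (by
      rintro γ ⟨z, τ'⟩
      refine ⟨(⟨(γ⁻¹ : ↥I).1 • (z : X), hZ _ (γ⁻¹).2 _ z.2⟩, γ⁻¹ * τ' * γ), fun j => ?_⟩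
      show (γ : GQ) (g j (((γ⁻¹ * τ' * γ : ↥I) : GQ) • ((γ⁻¹ : ↥I) : GQ) • (z : X)) -
        g j (((γ⁻¹ : ↥I) : GQ) • (z : X))) = g j ((τ' : GQ) • (z : X)) - g j (z : X)
      rw [map_sub, ← hbq γ γ.2, ← hbq γ γ.2]
      congr 2
      · simp only [Subgroup.coe_mul, Subgroup.coe_inv, smul_smul]
        congr 1
        group
      · simp only [Subgroup.coe_inv, smul_smul, mul_inv_cancel, one_smul])
    (by
      rintro ⟨z, τ'⟩
      simp only [mul_sub, Finset.sum_sub_distrib]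
      rw [← ha, ← ha, hψ _ τ'.2 _ z.2, sub_self])
  have hfix : ∀ j, ∀ z ∈ Z, ∀ τ ∈ I, τ (g j z) = g j z := by
    intro j z hz τ hτ
    have := key j (⟨z, hz⟩, ⟨τ, hτ⟩)
    rw [← hbq τ hτ]
    exact sub_eq_zero.1 this
  have hval : ∀ j, A.valuation (g j z₀ - g j 0) ≤ A.valuation (r : Qb) := by
    intro j
    refine valuation_le_of_fixed hr hA (fun σ hσ => ?_) ?_
    · rw [map_sub, hfix j z₀ hz₀ σ hσ, hfix j 0 Z.zero_mem σ hσ]
    · refine valuation_sub_lt_of_mem_span (fun h hh => ?_) (hgs j)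
      have := mem_conn.1 (hle hz₀) h hh 0
      rwa [add_zero] at this
  have h5 : ψ z₀ - 1 = ∑ j, ee j * (g j z₀ - g j 0) := by
    simp only [mul_sub, Finset.sum_sub_distrib]
    rw [← ha, ← ha, AddChar.map_zero_eq_one]
  have h6 : A.valuation (ψ z₀ - 1) ≤ A.valuation (r : Qb) := by
    rw [h5]
    refine Valuation.map_sum_le _ fun j _ => ?_
    rw [map_mul]
    calc A.valuation (ee j) * A.valuation (g j z₀ - g j 0)
        ≤ 1 * A.valuation (r : Qb) :=
          mul_le_mul' ((A.valuation_le_one_iff _).2 (hee j)) (hval j)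
      _ = _ := one_mul _
  obtain ⟨k, hk⟩ := hX z₀
  have h7 : ψ z₀ ^ r ^ k = 1 := by
    rw [← AddChar.map_nsmul_eq_pow, hk, AddChar.map_zero_eq_one]
  exact absurd h6 (not_le.2 (valuation_lt_of_root hr hr2 hA h7 hne))

/-- **(RAY)** : the connected part has no trivial subquotient. -/
theorem nt_conn [Finite X] (hr2 : r ≠ 2) (hA : A.LiesOverPrime r)
    (hH : IsHopfOrder r (DistribMulAction.toAddMonoidEnd GQ X) H)
    (hX : ∀ v : X, ∃ k : ℕ, r ^ k • v = 0) : NT (A.inertiaSubgroupIn ℚ) (conn A H) := by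
  intro Z hle hZ z₀ hz₀
  by_contra hn
  have hy : (QuotientAddGroup.mk z₀ : X ⧸ aug (A.inertiaSubgroupIn ℚ) Z) ≠ 0 := by
    rwa [Ne, QuotientAddGroup.eq_zero_iff]
  obtain ⟨ψ, hψ⟩ := exists_addChar_ne_one hy
  refine not_le_conn hr2 hA hH hX Z hZ
    (ψ.compAddMonoidHom (QuotientAddGroup.mk' (aug (A.inertiaSubgroupIn ℚ) Z)))
    (fun τ hτ z hz => ?_) hz₀ hψ hle
  show ψ (QuotientAddGroup.mk (τ • z)) = ψ (QuotientAddGroup.mk z)
  congr 1
  rw [QuotientAddGroup.eq]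
  have := smul_sub_mem_aug hτ hz
  have h2 := (aug (A.inertiaSubgroupIn ℚ) Z).neg_mem this
  rwa [neg_sub, sub_eq_neg_add] at h2

/-- **(RAY)** : a finite `r`-group with a Hopf order is `Ord`. -/
theorem ord_of_isHopfOrder [Finite X] (hr2 : r ≠ 2) (hA : A.LiesOverPrime r)
    (hH : IsHopfOrder r (DistribMulAction.toAddMonoidEnd GQ X) H)
    (hX : ∀ v : X, ∃ k : ℕ, r ^ k • v = 0) : Ord (A.inertiaSubgroupIn ℚ) X :=
  ⟨conn A H, fun _ hτ _ hz => act_mem_conn hA hH hτ hz,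
    fun _ hτ x => act_sub_mem_conn hA hH hτ x, nt_conn hr2 hA hH hX⟩

end Fermat.Agent.S33.Ray
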