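import Fermat.Agent.S33.Ray.Main
import Fermat.Agent.S32.Wire
import Fermat.Agent.S19

/-!
# S33 / RAY : `J₀(N)[p ^ k]` is `Ord` at `p ∤ N`, `p` odd
-/

set_option autoImplicit false
set_option linter.style.haveILetI false

noncomputable section

namespace Fermat.Agent.S33.Ray

open Fermat.Agent.FLAT (Qb GQ Zl IsHopfOrder)
open Fermat.Agent.MAZ Fermat.Agent.S32 ModularCurve

variable {r : ℕ} {X : Type} [AddCommGroup X] [DistribMulAction GQ X]

theorem isHopfOrder_of_isOrder {H : Subalgebra (Zl r) (X → Qb)} (h : IsOrder r H) :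
    IsHopfOrder r (DistribMulAction.toAddMonoidEnd GQ X) H where
  equivariant := fun a ha σ x => h.eqv a ha σ x
  fg := h.fg
  span_top := h.span
  comul := by
    intro a ha
    obtain ⟨n, u, v, hu, hv, e⟩ := h.comul a ha
    have : (fun p : X × X => a (p.1 + p.2)) = ∑ i, fun p : X × X => u i p.1 * v i p.2 := by
      funext p
      rw [Finset.sum_apply]
      exact e p.1 p.2
    rw [this]
    exact Submodule.sum_mem _ fun i _ => Submodule.subset_span ⟨u i, hu i, v i, hv i, rfl⟩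

theorem ord_of_hasOrder [Fact r.Prime] [Finite X] (hr2 : r ≠ 2) {A : ValuationSubring Qb}
    (hA : A.LiesOverPrime r) (h : HasOrder r X) (hX : ∀ v : X, ∃ k : ℕ, r ^ k • v = 0) :
    Ord (A.inertiaSubgroupIn ℚ) X := by
  obtain ⟨H, hH⟩ := h
  exact ord_of_isHopfOrder hr2 hA (isHopfOrder_of_isOrder hH) hX

/-- **(RAY)** at the good levels. -/
theorem ord_good (N p : ℕ) [NeZero N] (hp : p.Prime) (hp2 : p ≠ 2) (hpN : ¬ p ∣ N) (k : ℕ)
    (P : ValuationSubring Qb) (hP : P.LiesOverPrime p) :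
    letI := torsAction GQ (JZero N) ((p : ℤ) ^ k)
    Ord (P.inertiaSubgroupIn ℚ) (Submodule.torsionBy ℤ (JZero N) ((p : ℤ) ^ k)) := by
  haveI : Fact p.Prime := ⟨hp⟩
  letI i1 := torsAction GQ (JZero N) ((p : ℤ) ^ k)
  have hX : HasModel p (Submodule.torsionBy ℤ (JZero N) ((p : ℤ) ^ k)) := by
    obtain ⟨H', j1, j2, a1, a2, a3, e, a4, a5⟩ := Fermat.Agent.S19.result N p hpN k
    exact ⟨H', j1, j2, a1, a2, a3, e, a4, fun σ f g hfg => Subtype.ext (a5 σ f g hfg)⟩
  haveI := hX.finite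
  refine ord_of_hasOrder hp2 hP hX.hasOrder fun v => ⟨k, ?_⟩
  apply Subtype.ext
  have h1 := (Submodule.mem_torsionBy_iff _ _).1 v.2
  have h2 : ∀ y : JZero N, ((p : ℤ) ^ k) • y = (p ^ k : ℕ) • y := fun y => by
    rw [← Nat.cast_pow, natCast_zsmul]
  rw [h2] at h1
  simpa using h1

end Fermat.Agent.S33.Ray
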